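import Mathlib

/-!
# PROGRAM G (S56), block GW: the linear algebra of the Greenberg–Wiles count

Abstract form (no cohomology).  `k` a field, `H H'` the global `H¹`'s of `M` and `M*`,
`P P'` the (finite) products of the local `H¹`'s, `loc : H → P`, `loc' : H' → P'` the localisation
maps, `B : P × P' → k` the sum of the local Tate pairings (perfect), and the *middle exactness* of
Poitou–Tate in the form `range loc' = (range loc)^⊥`.  For a Selmer structure `L ⊆ P`:

  `dim loc⁻¹(L) + dim ker loc' + dim P = dim loc'⁻¹(L^⊥) + dim H + dim L`.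

* `orthR B L` : the right orthogonal of `L` (`= groupCohomology.orthogonal B L` of the Prelude);
* `finrank_orthR_add` : `dim L^⊥ + dim L = dim P` for a perfect pairing;
* `finrank_comap_eq` : `dim f⁻¹(L) = dim ker f + dim (L ⊓ range f)`;
* `selmer_count` : the identity above.
-/

set_option autoImplicit false

open Module

namespace Fermat.Agent.TW.GW.LinAlg

variable {k : Type*} [Field k]

section Orth

variable {P P' : Type*} [AddCommGroup P] [Module k P] [AddCommGroup P'] [Module k P']

/-- The right orthogonal of a submodule for a bilinear pairing. -/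
def orthR (B : P →ₗ[k] P' →ₗ[k] k) (L : Submodule k P) : Submodule k P' :=
  L.dualAnnihilator.comap B.flip

theorem mem_orthR_iff (B : P →ₗ[k] P' →ₗ[k] k) (L : Submodule k P) (y : P') :
    y ∈ orthR B L ↔ ∀ x ∈ L, B x y = 0 := by
  simp only [orthR, Submodule.mem_comap, Submodule.mem_dualAnnihilator]
  exact forall₂_congr fun x _ => by rw [LinearMap.flip_apply]

theorem orthR_sup (B : P →ₗ[k] P' →ₗ[k] k) (L₁ L₂ : Submodule k P) :
    orthR B (L₁ ⊔ L₂) = orthR B L₁ ⊓ orthR B L₂ := by
  ext y
  simp only [mem_orthR_iff, Submodule.mem_inf]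
  constructor
  · intro h
    exact ⟨fun x hx => h x (Submodule.mem_sup_left hx), fun x hx => h x (Submodule.mem_sup_right hx)⟩
  · rintro ⟨h1, h2⟩ x hx
    obtain ⟨a, ha, b, hb, rfl⟩ := Submodule.mem_sup.mp hx
    rw [map_add, LinearMap.add_apply, h1 a ha, h2 b hb, add_zero]

theorem orthR_anti (B : P →ₗ[k] P' →ₗ[k] k) {L₁ L₂ : Submodule k P} (h : L₁ ≤ L₂) :
    orthR B L₂ ≤ orthR B L₁ := fun y hy =>
  (mem_orthR_iff B L₁ y).mpr fun x hx => (mem_orthR_iff B L₂ y).mp hy x (h hx)

/-- For a perfect pairing, `dim L^⊥ + dim L = dim P`. -/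
theorem finrank_orthR_add [FiniteDimensional k P] (B : P →ₗ[k] P' →ₗ[k] k)
    (hB : Function.Bijective B.flip) (L : Submodule k P) :
    finrank k (orthR B L) + finrank k L = finrank k P := by
  let e : P' ≃ₗ[k] Dual k P := LinearEquiv.ofBijective B.flip hB
  have h1 : orthR B L = L.dualAnnihilator.comap (e : P' →ₗ[k] Dual k P) := rfl
  have h2 : finrank k (orthR B L) = finrank k L.dualAnnihilator := by
    rw [h1, Submodule.comap_equiv_eq_map_symm]
    exact LinearEquiv.finrank_map_eq e.symm L.dualAnnihilator
  rw [h2, add_comm]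
  exact Subspace.finrank_add_finrank_dualAnnihilator_eq L

end Orth

section Comap

variable {V W : Type*} [AddCommGroup V] [Module k V] [AddCommGroup W] [Module k W]

/-- `dim f⁻¹(L) = dim ker f + dim (L ⊓ range f)`. -/
theorem finrank_comap_eq [FiniteDimensional k V] (f : V →ₗ[k] W) (L : Submodule k W) :
    finrank k (L.comap f) = finrank k (LinearMap.ker f) + finrank k ↥(L ⊓ LinearMap.range f) := by
  -- the restriction of `f` to `f⁻¹(L)`
  set g : ↥(L.comap f) →ₗ[k] W := f.comp (L.comap f).subtype with hg
  have hrange : LinearMap.range g = L ⊓ LinearMap.range f := by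
    ext w
    simp only [LinearMap.mem_range, Submodule.mem_inf, hg, LinearMap.coe_comp, Function.comp_apply,
      Submodule.coe_subtype]
    constructor
    · rintro ⟨⟨v, hv⟩, rfl⟩
      exact ⟨hv, v, rfl⟩
    · rintro ⟨hw, v, rfl⟩
      exact ⟨⟨v, hw⟩, rfl⟩
  have hker : finrank k (LinearMap.ker g) = finrank k (LinearMap.ker f) := by
    have hle : LinearMap.ker f ≤ L.comap f := fun v hv => by
      rw [Submodule.mem_comap, LinearMap.mem_ker.mp hv]; exact L.zero_mem
    have : LinearMap.ker g = (LinearMap.ker f).comap (L.comap f).subtype := by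
      ext v
      simp [hg, LinearMap.mem_ker]
    rw [this]
    exact (Submodule.comapSubtypeEquivOfLe hle).finrank_eq
  have := LinearMap.finrank_range_add_finrank_ker g
  rw [hrange, hker] at this
  omega

end Comap

section Count

variable {H H' P P' : Type*} [AddCommGroup H] [Module k H] [AddCommGroup H'] [Module k H']
  [AddCommGroup P] [Module k P] [AddCommGroup P'] [Module k P']
  [FiniteDimensional k H] [FiniteDimensional k H'] [FiniteDimensional k P]

/-- **The Greenberg–Wiles count, abstract form.** -/
theorem selmer_count (loc : H →ₗ[k] P) (loc' : H' →ₗ[k] P') (B : P →ₗ[k] P' →ₗ[k] k)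
    (hB : Function.Bijective B.flip)
    (hex : ∀ y : P', y ∈ LinearMap.range loc' ↔ ∀ x : H, B (loc x) y = 0)
    (L : Submodule k P) :
    finrank k (L.comap loc) + finrank k (LinearMap.ker loc') + finrank k P =
      finrank k ((orthR B L).comap loc') + finrank k H + finrank k L := by
  set A := LinearMap.range loc with hA
  set A' := LinearMap.range loc' with hA'
  have hAA' : A' = orthR B A := by
    ext y
    rw [hex y, mem_orthR_iff]
    constructor
    · rintro h _ ⟨x, rfl⟩; exact h x
    · intro h x; exact h _ ⟨x, rfl⟩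
  have h1 := finrank_comap_eq loc L
  have h2 := finrank_comap_eq loc' (orthR B L)
  have h3 : finrank k (LinearMap.range loc) + finrank k (LinearMap.ker loc) = finrank k H :=
    LinearMap.finrank_range_add_finrank_ker loc
  have h4 := Submodule.finrank_sup_add_finrank_inf_eq A L
  have h5 := finrank_orthR_add B hB (A ⊔ L)
  have h6 : orthR B L ⊓ A' = orthR B (A ⊔ L) := by
    rw [orthR_sup, hAA', inf_comm]
  rw [h6] at h2
  have h7 : finrank k ↥(L ⊓ A) = finrank k ↥(A ⊓ L) := by rw [inf_comm]
  rw [← hA] at h1 h3
  omega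

end Count

/-! ### products of local terms -/

section Pi

variable {ι : Type*} [Fintype ι] [DecidableEq ι] {P P' : ι → Type*}
  [∀ v, AddCommGroup (P v)] [∀ v, Module k (P v)]
  [∀ v, AddCommGroup (P' v)] [∀ v, Module k (P' v)]

/-- The sum of the local pairings. -/
def totalPairing (B : ∀ v, P v →ₗ[k] P' v →ₗ[k] k) : (∀ v, P v) →ₗ[k] (∀ v, P' v) →ₗ[k] k :=
  ∑ v, (B v).compl₁₂ (LinearMap.proj v) (LinearMap.proj v)

omit [DecidableEq ι] in
@[simp]
theorem totalPairing_apply (B : ∀ v, P v →ₗ[k] P' v →ₗ[k] k) (x : ∀ v, P v) (y : ∀ v, P' v) :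
    totalPairing B x y = ∑ v, B v (x v) (y v) := by
  simp only [totalPairing, LinearMap.sum_apply, LinearMap.compl₁₂_apply, LinearMap.proj_apply]

theorem totalPairing_single_left (B : ∀ v, P v →ₗ[k] P' v →ₗ[k] k) (v : ι) (a : P v)
    (y : ∀ v, P' v) : totalPairing B (Pi.single v a) y = B v a (y v) := by
  rw [totalPairing_apply, Finset.sum_eq_single v]
  · rw [Pi.single_eq_same]
  · intro w _ hw
    rw [Pi.single_eq_of_ne hw, map_zero, LinearMap.zero_apply]
  · intro h; exact absurd (Finset.mem_univ v) h

/-- The right orthogonal of a product of local conditions is the product of the orthogonals. -/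
theorem orthR_pi (B : ∀ v, P v →ₗ[k] P' v →ₗ[k] k) (L : ∀ v, Submodule k (P v)) :
    orthR (totalPairing B) (Submodule.pi Set.univ L) =
      Submodule.pi Set.univ fun v => orthR (B v) (L v) := by
  ext y
  simp only [mem_orthR_iff, Submodule.mem_pi, Set.mem_univ, forall_true_left]
  constructor
  · intro h v a ha
    have := h (Pi.single v a) (fun w => by
      by_cases hw : w = v
      · subst hw; rw [Pi.single_eq_same]; exact ha
      · rw [Pi.single_eq_of_ne hw]; exact (L w).zero_mem)
    rwa [totalPairing_single_left] at this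
  · intro h x hx
    rw [totalPairing_apply]
    exact Finset.sum_eq_zero fun v _ => h v (x v) (hx v)

/-- The sum of perfect pairings is perfect. -/
theorem totalPairing_flip_bijective (B : ∀ v, P v →ₗ[k] P' v →ₗ[k] k)
    (hB : ∀ v, Function.Bijective (B v).flip) : Function.Bijective (totalPairing B).flip := by
  constructor
  · rw [← LinearMap.ker_eq_bot, LinearMap.ker_eq_bot']
    intro y hy
    funext v
    apply (hB v).1
    rw [Pi.zero_apply, map_zero]
    ext a
    have := LinearMap.congr_fun hy (Pi.single v a)
    rw [LinearMap.flip_apply, totalPairing_single_left] at this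
    rw [LinearMap.flip_apply, this]
    rfl
  · intro φ
    choose y hy using fun v => (hB v).2 (φ.comp (LinearMap.single k P v))
    refine ⟨y, ?_⟩
    ext v a
    simp only [LinearMap.coe_comp, LinearMap.coe_single, Function.comp_apply]
    rw [LinearMap.flip_apply, totalPairing_single_left]
    have := LinearMap.congr_fun (hy v) a
    rw [LinearMap.flip_apply] at this
    rw [this]
    rfl

omit [DecidableEq ι] in
/-- The dimension of a product of subspaces. -/
theorem finrank_pi_submodule [∀ v, FiniteDimensional k (P v)] (L : ∀ v, Submodule k (P v)) :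
    finrank k (Submodule.pi Set.univ L) = ∑ v, finrank k (L v) := by
  let e : ↥(Submodule.pi Set.univ L) ≃ₗ[k] ∀ v, ↥(L v) :=
    { toFun := fun x v => ⟨x.1 v, x.2 v (Set.mem_univ v)⟩
      map_add' := fun x y => rfl
      map_smul' := fun c x => rfl
      invFun := fun x => ⟨fun v => (x v).1, fun v _ => (x v).2⟩
      left_inv := fun x => rfl
      right_inv := fun x => rfl }
  rw [e.finrank_eq, Module.finrank_pi_fintype]

end Pi

end Fermat.Agent.TW.GW.LinAlg
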