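import Mathlib
import Fermat.Agent.TW.GW.LinAlg

/-!
# PROGRAM G (S56), block GW: the Greenberg–Wiles inequality from its typed inputs (abstract form)

`k` a field; all spaces finite-dimensional over `k`.  `ι` the finite set of finite places.

* `H1`, `H1'`, `H2` : the global `H¹(M)`, `H¹(M*)`, `H²(M)`;
* `P1 v`, `P1' v`, `P2 v` : the local `H¹(M)`, `H¹(M*)`, `H²(M)` at `v`;
* `loc1`, `loc1'`, `loc2` : the localisation maps; `B v` : the local Tate pairing on `H¹ × H¹`.

Inputs:
* `hB`   (I2) local duality: every `B v` is perfect;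
* `hex`  (I1) middle exactness of Poitou–Tate: `range loc1' = (range loc1)^⊥`;
* `hsha` (I3) `dim Ш¹(M*) = dim Ш²(M)` (S55);
* `hend` (I4, easy half) `rank loc2 + h⁰(M*) ≤ Σ_v dim H²(G_v, M)` (reciprocity + local duality
  `H² × H⁰`: see `rank_add_le_of_comp_eq_zero`);
* `hglob` (E-glob) `h¹ + h⁰(G_∞, M) ≤ h² + h⁰ + dim M` (Tate's global Euler characteristic, upper
  bound);
* `hloc` (E-loc) `h⁰_v + h²_v + [v = p] dim M ≤ h¹_v` (local Euler characteristics, lower bounds).

Output `gw_le`: for local conditions `L v ⊆ P1 v`,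

  `dim H¹_L(M) + h⁰(M*) + Σ_v h⁰_v + h⁰_∞ ≤ dim H¹_{L^⊥}(M*) + h⁰(M) + Σ_v dim L_v`.
-/

set_option autoImplicit false

open Module

namespace Fermat.Agent.TW.GW.Count

open Fermat.Agent.TW.GW.LinAlg

variable {k : Type*} [Field k]

/-- If `e ∘ f = 0` and `e` is onto `D` then `rank f + dim D ≤ dim` of the middle space. -/
theorem rank_add_le_of_comp_eq_zero {U V D : Type*} [AddCommGroup U] [Module k U]
    [AddCommGroup V] [Module k V] [AddCommGroup D] [Module k D] [FiniteDimensional k V]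
    (f : U →ₗ[k] V) (e : V →ₗ[k] D) (he : Function.Surjective e) (hef : e.comp f = 0) :
    finrank k (LinearMap.range f) + finrank k D ≤ finrank k V := by
  have h1 : LinearMap.range f ≤ LinearMap.ker e := by
    rintro _ ⟨u, rfl⟩
    exact LinearMap.congr_fun hef u
  have h2 := LinearMap.finrank_range_add_finrank_ker e
  have h3 : finrank k (LinearMap.range e) = finrank k D := by
    rw [LinearMap.range_eq_top.mpr he, finrank_top]
  have h4 := Submodule.finrank_mono h1
  omega

section Main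

variable {ι : Type*} [Fintype ι] [DecidableEq ι]
  {H1 H1' H2 : Type*} [AddCommGroup H1] [Module k H1] [AddCommGroup H1'] [Module k H1']
  [AddCommGroup H2] [Module k H2]
  [FiniteDimensional k H1] [FiniteDimensional k H1'] [FiniteDimensional k H2]
  {P1 P1' P2 : ι → Type*}
  [∀ v, AddCommGroup (P1 v)] [∀ v, Module k (P1 v)] [∀ v, FiniteDimensional k (P1 v)]
  [∀ v, AddCommGroup (P1' v)] [∀ v, Module k (P1' v)]
  [∀ v, AddCommGroup (P2 v)] [∀ v, Module k (P2 v)] [∀ v, FiniteDimensional k (P2 v)]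

/-- The Selmer group cut out by the local conditions `L`. -/
def selmer (loc : H1 →ₗ[k] ∀ v, P1 v) (L : ∀ v, Submodule k (P1 v)) : Submodule k H1 :=
  (Submodule.pi Set.univ L).comap loc

omit [Fintype ι] [DecidableEq ι] [FiniteDimensional k H1] [∀ v, FiniteDimensional k (P1 v)] in
theorem mem_selmer_iff (loc : H1 →ₗ[k] ∀ v, P1 v) (L : ∀ v, Submodule k (P1 v)) (x : H1) :
    x ∈ selmer loc L ↔ ∀ v, loc x v ∈ L v := by
  simp [selmer, Submodule.mem_pi]

omit [∀ v, FiniteDimensional k (P2 v)] in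
/-- **The Greenberg–Wiles inequality from its typed inputs.** -/
theorem gw_le (loc1 : H1 →ₗ[k] ∀ v, P1 v) (loc1' : H1' →ₗ[k] ∀ v, P1' v)
    (loc2 : H2 →ₗ[k] ∀ v, P2 v) (B : ∀ v, P1 v →ₗ[k] P1' v →ₗ[k] k)
    (hB : ∀ v, Function.Bijective (B v).flip)
    (hex : ∀ y : ∀ v, P1' v, y ∈ LinearMap.range loc1' ↔ ∀ x : H1, ∑ v, B v (loc1 x v) (y v) = 0)
    (hsha : finrank k (LinearMap.ker loc1') = finrank k (LinearMap.ker loc2))
    (h0 h0s hinf dimM : ℕ) (h0v : ι → ℕ) (pp : ι)
    (hend : finrank k (LinearMap.range loc2) + h0s ≤ ∑ v, finrank k (P2 v))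
    (hglob : finrank k H1 + hinf ≤ finrank k H2 + h0 + dimM)
    (hloc : ∀ v, h0v v + finrank k (P2 v) + (if v = pp then dimM else 0) ≤ finrank k (P1 v))
    (L : ∀ v, Submodule k (P1 v)) :
    finrank k (selmer loc1 L) + h0s + ∑ v, h0v v + hinf ≤
      finrank k (selmer loc1' fun v => orthR (B v) (L v)) + h0 + ∑ v, finrank k (L v) := by
  have hcount := selmer_count loc1 loc1' (totalPairing B) (totalPairing_flip_bijective B hB)
    (fun y => by simpa only [totalPairing_apply] using hex y) (Submodule.pi Set.univ L)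
  rw [orthR_pi, finrank_pi_submodule, Module.finrank_pi_fintype] at hcount
  have hrk := LinearMap.finrank_range_add_finrank_ker loc2
  have hsum : ∑ v, (h0v v + finrank k (P2 v) + (if v = pp then dimM else 0)) ≤
      ∑ v, finrank k (P1 v) := Finset.sum_le_sum fun v _ => hloc v
  rw [Finset.sum_add_distrib, Finset.sum_add_distrib, Finset.sum_ite_eq' Finset.univ pp,
    if_pos (Finset.mem_univ pp)] at hsum
  change finrank k ((Submodule.pi Set.univ L).comap loc1) + h0s + ∑ v, h0v v + hinf ≤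
    finrank k ((Submodule.pi Set.univ fun v => orthR (B v) (L v)).comap loc1') + h0 +
      ∑ v, finrank k (L v)
  omega

end Main

end Fermat.Agent.TW.GW.Count
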