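import Mathlib
import Fermat.Agent.TW.GW.Count

/-!
# PROGRAM G (S56), block GW: the Greenberg–Wiles inequality counted on the DUAL side
(no local Euler characteristics)

Same abstract setting as `Count.lean` (helper24).  Counting the image of the localisation map of
`M*` instead of that of `M` removes the local dimensions `dim H¹(G_v, M)` from the bookkeeping:

  `dim H¹_L(M) + dim H¹(M*) = dim H¹_{L^⊥}(M*) + dim Ш¹(M) + Σ_v dim L_v`     (`selmer_count_dual`)

so the inequality follows from inputs about `M*` only: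

* `hsha'`  `dim Ш¹(M) = dim Ш²(M*)` (S55 applied to `N = M*`, `N* ≅ M`);
* `hend'`  (end exactness of Poitou–Tate for `M*`, the half with content)
           `Σ_v dim H²(G_v, M*) ≤ rank loc² + h⁰(M)`;
* `hlocd`  (local duality `H⁰ × H²`, injectivity only) `h⁰(G_v, M) ≤ dim H²(G_v, M*)`;
* `hglob'` (Tate's global Euler characteristic for `M*`, lower bound for `h¹`)
           `h²(M*) + h⁰(M*) + dim M ≤ h¹(M*) + h⁰(G_∞, M*)`.

No local Euler characteristic (`hloc` of `Count.gw_le`) is needed at any place.
-/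

set_option autoImplicit false

open Module

namespace Fermat.Agent.TW.GW.CountDual

open Fermat.Agent.TW.GW.LinAlg Fermat.Agent.TW.GW.Count

variable {k : Type*} [Field k]

section Abstract

variable {H H' P P' : Type*} [AddCommGroup H] [Module k H] [AddCommGroup H'] [Module k H']
  [AddCommGroup P] [Module k P] [AddCommGroup P'] [Module k P']
  [FiniteDimensional k H] [FiniteDimensional k H'] [FiniteDimensional k P]

omit [FiniteDimensional k H] [FiniteDimensional k H'] in
/-- `rank loc' + rank loc = dim P` from middle exactness and perfectness. -/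
theorem finrank_range_add_finrank_range (loc : H →ₗ[k] P) (loc' : H' →ₗ[k] P')
    (B : P →ₗ[k] P' →ₗ[k] k) (hB : Function.Bijective B.flip)
    (hex : ∀ y : P', y ∈ LinearMap.range loc' ↔ ∀ x : H, B (loc x) y = 0) :
    finrank k (LinearMap.range loc') + finrank k (LinearMap.range loc) = finrank k P := by
  have hAA' : LinearMap.range loc' = orthR B (LinearMap.range loc) := by
    ext y
    rw [hex y, mem_orthR_iff]
    constructor
    · rintro h _ ⟨x, rfl⟩; exact h x
    · intro h x; exact h _ ⟨x, rfl⟩
  rw [hAA']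
  exact finrank_orthR_add B hB _

/-- **The Greenberg–Wiles count, dual form**: no `dim P`. -/
theorem selmer_count_dual (loc : H →ₗ[k] P) (loc' : H' →ₗ[k] P') (B : P →ₗ[k] P' →ₗ[k] k)
    (hB : Function.Bijective B.flip)
    (hex : ∀ y : P', y ∈ LinearMap.range loc' ↔ ∀ x : H, B (loc x) y = 0)
    (L : Submodule k P) :
    finrank k (L.comap loc) + finrank k H' =
      finrank k ((orthR B L).comap loc') + finrank k (LinearMap.ker loc) + finrank k L := by
  have h1 := selmer_count loc loc' B hB hex L
  have h2 := finrank_range_add_finrank_range loc loc' B hB hex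
  have h3 := LinearMap.finrank_range_add_finrank_ker loc
  have h4 := LinearMap.finrank_range_add_finrank_ker loc'
  omega

end Abstract

section Main

variable {ι : Type*} [Fintype ι] [DecidableEq ι]
  {H1 H1' H2' : Type*} [AddCommGroup H1] [Module k H1] [AddCommGroup H1'] [Module k H1']
  [AddCommGroup H2'] [Module k H2']
  [FiniteDimensional k H1] [FiniteDimensional k H1'] [FiniteDimensional k H2']
  {P1 P1' P2' : ι → Type*}
  [∀ v, AddCommGroup (P1 v)] [∀ v, Module k (P1 v)] [∀ v, FiniteDimensional k (P1 v)]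
  [∀ v, AddCommGroup (P1' v)] [∀ v, Module k (P1' v)]
  [∀ v, AddCommGroup (P2' v)] [∀ v, Module k (P2' v)] [∀ v, FiniteDimensional k (P2' v)]

omit [∀ v, FiniteDimensional k (P2' v)] in
/-- **The Greenberg–Wiles inequality from inputs on the dual side only.**
`H1, H1'` the global `H¹(M), H¹(M*)`, `H2'` the global `H²(M*)`, `P1 v, P1' v` the local
`H¹(M), H¹(M*)`, `P2' v` the local `H²(M*)`; `h0 = h⁰(M)`, `h0s = h⁰(M*)`,
`hinf' = h⁰(G_∞, M*)`, `h0v v = h⁰(G_v, M)`. -/
theorem gw_le_dual (loc1 : H1 →ₗ[k] ∀ v, P1 v) (loc1' : H1' →ₗ[k] ∀ v, P1' v)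
    (loc2' : H2' →ₗ[k] ∀ v, P2' v) (B : ∀ v, P1 v →ₗ[k] P1' v →ₗ[k] k)
    (hB : ∀ v, Function.Bijective (B v).flip)
    (hex : ∀ y : ∀ v, P1' v, y ∈ LinearMap.range loc1' ↔ ∀ x : H1, ∑ v, B v (loc1 x v) (y v) = 0)
    (hsha' : finrank k (LinearMap.ker loc1) = finrank k (LinearMap.ker loc2'))
    (h0 h0s hinf' dimM : ℕ) (h0v : ι → ℕ)
    (hend' : ∑ v, finrank k (P2' v) ≤ finrank k (LinearMap.range loc2') + h0)
    (hlocd : ∀ v, h0v v ≤ finrank k (P2' v))
    (hglob' : finrank k H2' + h0s + dimM ≤ finrank k H1' + hinf')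
    (L : ∀ v, Submodule k (P1 v)) :
    finrank k (selmer loc1 L) + h0s + ∑ v, h0v v + dimM ≤
      finrank k (selmer loc1' fun v => orthR (B v) (L v)) + h0 + ∑ v, finrank k (L v) + hinf' := by
  have hcount := selmer_count_dual loc1 loc1' (totalPairing B)
    (totalPairing_flip_bijective B hB)
    (fun y => by simpa only [totalPairing_apply] using hex y) (Submodule.pi Set.univ L)
  rw [orthR_pi, finrank_pi_submodule] at hcount
  have hrk := LinearMap.finrank_range_add_finrank_ker loc2'
  have hsum : ∑ v, h0v v ≤ ∑ v, finrank k (P2' v) := Finset.sum_le_sum fun v _ => hlocd v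
  change finrank k ((Submodule.pi Set.univ L).comap loc1) + h0s + ∑ v, h0v v + dimM ≤
    finrank k ((Submodule.pi Set.univ fun v => orthR (B v) (L v)).comap loc1') + h0 +
      ∑ v, finrank k (L v) + hinf'
  omega

end Main

end Fermat.Agent.TW.GW.CountDual
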