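import Mathlib
import Fermat.Agent.CFT.PT.RepZ

/-!
# PROGRAM G (S56), block GW-ASSEMBLY: restriction of scalars `Rep k G → Rep (ZMod p) G`

`k` a field which is a `ZMod p`-algebra (in the application the finite residue field of `𝒪`).
For `A : Rep k G`, `rsFp p A : Rep (ZMod p) G` is the same additive group with the same action.
Poitou–Tate (S55, the GW-bridge) is available for `ZMod p`-coefficients only, while the Selmer and
local conditions of S56 are `k`-subspaces; this file is the dictionary:

* `repZ_rsFp : repZ (rsFp p A) = repZ A` (definitionally), hence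
  `rsH1Equiv : LC.H1 L A ≃+ LC.H1 L (rsFp p A)`, `rsH2Equiv`, compatible with `lcResH1/2`;
* `isSmooth_rsFp_iff`, `res_rsFp`, `mem_invariants_rsFp_iff`;
* `finrank_zmod_eq_mul_of_addEquiv`: `dim_{𝔽_p} W' = [k : 𝔽_p] · dim_k W` when `W ≃+ W'`.
-/

set_option autoImplicit false
set_option linter.unusedSectionVars false
set_option linter.style.haveILetI false

open CategoryTheory groupCohomology Module

noncomputable section

namespace Fermat.Agent.TW.GW.RestrictFp

open Fermat.Agent.CFT Fermat.Agent.CFT.PT Fermat.Agent.S55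

variable (p : ℕ) [Fact p.Prime] {k G : Type} [Field k] [Algebra (ZMod p) k] [Group G]

/-- The `ZMod p`-module structure on a `k`-vector space. -/
@[reducible] def fpModule (A : Type) [AddCommGroup A] [Module k A] : Module (ZMod p) A :=
  Module.compHom A (algebraMap (ZMod p) k)

/-- The action of `G` on `A`, as a `ZMod p`-linear representation. -/
def rsFpρ (A : Rep k G) : @Representation (ZMod p) G A _ _ _ (fpModule (k := k) p A) :=
  letI := fpModule (k := k) p A
  { toFun := fun g =>
      { toFun := fun a => A.ρ g a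
        map_add' := fun a b => map_add _ a b
        map_smul' := fun c a => by
          show A.ρ g (algebraMap (ZMod p) k c • a) = algebraMap (ZMod p) k c • A.ρ g a
          exact map_smul _ _ _ }
    map_one' := by
      ext a
      show A.ρ 1 a = a
      rw [map_one]
      rfl
    map_mul' := fun g h => by
      ext a
      show A.ρ (g * h) a = A.ρ g (A.ρ h a)
      rw [map_mul]
      rfl }

/-- Restriction of scalars to `ZMod p`. -/
def rsFp (A : Rep k G) : Rep (ZMod p) G :=
  letI := fpModule (k := k) p A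
  Rep.of (X := A) (rsFpρ p A)

@[simp] theorem rsFp_ρ_apply (A : Rep k G) (g : G) (a : A) :
    (rsFp p A).ρ g (a : rsFp p A) = A.ρ g a := rfl

/-- `repZ` does not see the coefficient field. -/
theorem repZ_rsFp (A : Rep k G) : repZ (rsFp p A) = repZ A := rfl

variable (L : LevelStructure G) (A : Rep k G)

theorem isSmooth_rsFp_iff : IsSmooth L (rsFp p A) ↔ IsSmooth L A := Iff.rfl

/-- `LC.H1 L A ≃+ LC.H1 L (rsFp p A)` (identity on cocycles). -/
def rsH1Equiv : LC.H1 L A ≃+ LC.H1 L (rsFp p A) :=
  (repZH1Equiv L A).trans (repZH1Equiv L (rsFp p A)).symm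

/-- `LC.H2 L A ≃+ LC.H2 L (rsFp p A)` (identity on cocycles). -/
def rsH2Equiv : LC.H2 L A ≃+ LC.H2 L (rsFp p A) :=
  (repZH2Equiv L A).trans (repZH2Equiv L (rsFp p A)).symm

theorem rsH1Equiv_mk (f : ↥(LC.Z₁ L A)) :
    rsH1Equiv p L A (LC.H1π L A f) =
      LC.H1π L (rsFp p A) ((repZZ₁Equiv L (rsFp p A)).symm (repZZ₁Equiv L A f)) := rfl

section Res

variable {H : Type} [Group H] {f : H →* G} {L} {L' : LevelStructure H}

theorem res_rsFp : Rep.res f (rsFp p A) = rsFp p (Rep.res f A) := rfl

/-- `rsH1Equiv` commutes with the restriction maps `lcResH1`. -/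
theorem lcResH1_rsFp (hf : LevelCompat f L L') (x : LC.H1 L A) :
    lcResH1 (rsFp p A) hf (rsH1Equiv p L A x) =
      (rsH1Equiv p L' (Rep.res f A) (lcResH1 A hf x) : LC.H1 L' (rsFp p (Rep.res f A))) := by
  obtain ⟨c, rfl⟩ := Submodule.mkQ_surjective _ x
  rfl

/-- `rsH2Equiv` commutes with the restriction maps `lcResH2`. -/
theorem lcResH2_rsFp (hf : LevelCompat f L L') (x : LC.H2 L A) :
    lcResH2 (rsFp p A) hf (rsH2Equiv p L A x) =
      (rsH2Equiv p L' (Rep.res f A) (lcResH2 A hf x) : LC.H2 L' (rsFp p (Rep.res f A))) := by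
  obtain ⟨c, rfl⟩ := Submodule.mkQ_surjective _ x
  rfl

end Res

/-- The invariants of `rsFp p A` and of `A` are the same set. -/
theorem mem_invariants_rsFp_iff (a : A) :
    (a : rsFp p A) ∈ (rsFp p A).ρ.invariants ↔ a ∈ A.ρ.invariants := Iff.rfl


/-! ### Dimensions over `k` and over `ZMod p` -/

section Dim

variable [Finite k]

omit [Group G] in
/-- `dim_{𝔽_p} W' = [k : 𝔽_p] · dim_k W` for an additive equivalence `W ≃+ W'`. -/
theorem finrank_zmod_eq_mul_of_addEquiv {W : Type*} [AddCommGroup W] [Module k W]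
    [Module.Finite k W] {W' : Type*} [AddCommGroup W'] [Module (ZMod p) W'] (e : W ≃+ W') :
    finrank (ZMod p) W' = finrank (ZMod p) k * finrank k W := by
  have hp : p.Prime := Fact.out
  haveI : Finite W := Module.finite_of_finite k
  haveI : Finite W' := Finite.of_equiv W e.toEquiv
  haveI : Module.Finite (ZMod p) W' := Module.Finite.of_finite
  haveI : Module.Finite (ZMod p) k := Module.Finite.of_finite
  have h1 : Nat.card W = Nat.card k ^ finrank k W := Module.natCard_eq_pow_finrank
  have h2 : Nat.card k = Nat.card (ZMod p) ^ finrank (ZMod p) k := Module.natCard_eq_pow_finrank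
  have h3 : Nat.card W' = Nat.card (ZMod p) ^ finrank (ZMod p) W' :=
    Module.natCard_eq_pow_finrank
  have h4 : Nat.card W = Nat.card W' := Nat.card_congr e.toEquiv
  have h5 : Nat.card (ZMod p) = p := Nat.card_zmod p
  rw [h5] at h2 h3
  rw [h1, h2, h3, ← pow_mul] at h4
  exact (Nat.pow_right_injective hp.two_le h4).symm

omit [Group G] [Finite k] in
/-- The image of an additive subgroup under an additive equivalence, as a `ZMod p`-submodule. -/
def mapFp {V V' : Type*} [AddCommGroup V] [AddCommGroup V'] [Module (ZMod p) V']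
    (φ : V ≃+ V') (W : AddSubgroup V) : Submodule (ZMod p) V' :=
  AddSubgroup.toZModSubmodule p (W.map φ.toAddMonoidHom)

omit [Group G] [Finite k] in
theorem mem_mapFp_iff {V V' : Type*} [AddCommGroup V] [AddCommGroup V'] [Module (ZMod p) V']
    (φ : V ≃+ V') (W : AddSubgroup V) (x : V) : φ x ∈ mapFp p φ W ↔ x ∈ W := by
  show φ x ∈ W.map φ.toAddMonoidHom ↔ x ∈ W
  constructor
  · rintro ⟨y, hy, hxy⟩
    have : y = x := φ.injective hxy
    exact this ▸ hy
  · intro hx
    exact ⟨x, hx, rfl⟩

omit [Group G] [Finite k] in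
/-- `W ≃+ mapFp φ W`. -/
def mapFpEquiv {V V' : Type*} [AddCommGroup V] [AddCommGroup V'] [Module (ZMod p) V']
    (φ : V ≃+ V') (W : AddSubgroup V) : W ≃+ mapFp p φ W where
  toFun x := ⟨φ x.1, (mem_mapFp_iff p φ W x.1).2 x.2⟩
  invFun y := ⟨φ.symm y.1, by
    have := (mem_mapFp_iff p φ W (φ.symm y.1)).1
    rw [AddEquiv.apply_symm_apply] at this
    exact this y.2⟩
  left_inv x := Subtype.ext (φ.symm_apply_apply x.1)
  right_inv y := Subtype.ext (φ.apply_symm_apply y.1)
  map_add' x y := Subtype.ext (map_add φ x.1 y.1)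

omit [Group G] in
/-- `dim_{𝔽_p} φ(W) = [k : 𝔽_p] · dim_k W` for a `k`-subspace `W`. -/
theorem finrank_mapFp {V V' : Type*} [AddCommGroup V] [Module k V] [AddCommGroup V']
    [Module (ZMod p) V'] (φ : V ≃+ V') (W : Submodule k V) [Module.Finite k W] :
    finrank (ZMod p) (mapFp p φ W.toAddSubgroup) = finrank (ZMod p) k * finrank k W :=
  finrank_zmod_eq_mul_of_addEquiv (k := k) p (W := W) (mapFpEquiv p φ W.toAddSubgroup)

end Dim


end Fermat.Agent.TW.GW.RestrictFp

end
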