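import Mathlib
import Fermat.Agent.TW.GW.RestrictFp
import Fermat.Agent.TW.GW.Count
import Fermat.Agent.TW.GWB.Wrap

/-!
# PROGRAM G (S56), block GW-ASSEMBLY: Selmer groups over `k` and over `ZMod p`

`k` a finite field of characteristic `p`, `Mk : Rep k G_ℚ`, `M := rsFp p Mk : Rep (ZMod p) G_ℚ`,
`T` a finite set of primes, `Lk v` a `k`-subspace of `H¹(G_v, Mk)` for `v ∈ T`.

* `locEquiv v : H¹(G_v, Mk) ≃+ LocH1 T M v` (helper21's wrapper of `H¹(G_v, M)`);
* `Lfp v := mapFp (locEquiv v) (Lk v)`: the same local condition as a `ZMod p`-subspace;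
* `selmerK`: the Selmer group of `Mk` cut out by `Lk` (a `k`-subspace of `H¹(G_T, Mk)`);
* `selmer_rsFp`: `selmer (locW1 T M) Lfp` is the image of `selmerK` under `rsH1Equiv`;
* `finrank_selmer_rsFp`, `finrank_Lfp`, `finrank_invariants_rsFp`: dimensions scale by `[k : 𝔽_p]`.
-/

set_option autoImplicit false
set_option linter.unusedSectionVars false
set_option linter.style.haveILetI false

open CategoryTheory ExtCitation Module

noncomputable section

namespace Fermat.Agent.TW.GW.SelmerFp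

open Fermat.Agent.CFT Fermat.Agent.CFT.PT Fermat.Agent.S55
open Fermat.Agent.TW.GWB Fermat.Agent.TW.GW.Count Fermat.Agent.TW.GW.RestrictFp

local notation "GQ" => (AlgebraicClosure ℚ ≃ₐ[ℚ] AlgebraicClosure ℚ)

variable (p : ℕ) [Fact p.Prime] {k : Type} [Field k] [Algebra (ZMod p) k]
  (T : Finset Nat.Primes) (Mk : Rep k GQ)

/-- The local cohomology group `H¹(G_v, Mk)` with `k`-coefficients. -/
abbrev H1k (v : ↥T) : Type :=
  LC.H1 (levelOf (primeLocalToGlobal v.1)) (Rep.res (primeLocalToGlobal v.1) Mk)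

/-- `H¹(G_v, Mk) ≃+ H¹(G_v, rsFp Mk)` with values in helper21's wrapper. -/
def locEquiv (v : ↥T) : H1k T Mk v ≃+ LocH1 T (rsFp p Mk) v :=
  rsH1Equiv p (levelOf (primeLocalToGlobal v.1)) (Rep.res (primeLocalToGlobal v.1) Mk)

/-- Localisation commutes with restriction of scalars. -/
theorem locW1_rsH1Equiv (x : LC.H1 (globalLevel T) Mk) (v : ↥T) :
    locW1 T (rsFp p Mk) (rsH1Equiv p (globalLevel T) Mk x) v =
      locEquiv p T Mk v
        (lcResH1 Mk (levelCompat_globalLevel (primeLocalToGlobal v.1) T) x) :=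
  lcResH1_rsFp p Mk (levelCompat_globalLevel (primeLocalToGlobal v.1) T) x

variable (Lk : ∀ v : ↥T, Submodule k (H1k T Mk v))

/-- The local conditions as `ZMod p`-subspaces. -/
def Lfp (v : ↥T) : Submodule (ZMod p) (LocH1 T (rsFp p Mk) v) :=
  mapFp p (locEquiv p T Mk v) (Lk v).toAddSubgroup

/-- The Selmer group with `k`-coefficients. -/
def selmerK : Submodule k (LC.H1 (globalLevel T) Mk) :=
  ⨅ v : ↥T, (Lk v).comap (lcResH1 Mk (levelCompat_globalLevel (primeLocalToGlobal v.1) T))

theorem mem_selmerK_iff (x : LC.H1 (globalLevel T) Mk) :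
    x ∈ selmerK T Mk Lk ↔
      ∀ v : ↥T, lcResH1 Mk (levelCompat_globalLevel (primeLocalToGlobal v.1) T) x ∈ Lk v := by
  simp only [selmerK, Submodule.mem_iInf, Submodule.mem_comap]

/-- The Selmer group of `rsFp Mk` for the conditions `Lfp` is the image of `selmerK`. -/
theorem selmer_rsFp :
    selmer (locW1 T (rsFp p Mk)) (Lfp p T Mk Lk) =
      mapFp p (rsH1Equiv p (globalLevel T) Mk) (selmerK T Mk Lk).toAddSubgroup := by
  ext y
  obtain ⟨x, rfl⟩ := (rsH1Equiv p (globalLevel T) Mk).surjective y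
  rw [mem_mapFp_iff, Submodule.mem_toAddSubgroup, mem_selmerK_iff, mem_selmer_iff]
  refine forall_congr' fun v => ?_
  rw [locW1_rsH1Equiv, Lfp, mem_mapFp_iff, Submodule.mem_toAddSubgroup]

theorem Lfp_eq_top (v : ↥T) (h : Lk v = ⊤) : Lfp p T Mk Lk v = ⊤ := by
  rw [eq_top_iff]
  intro y _
  obtain ⟨x, rfl⟩ := (locEquiv p T Mk v).surjective y
  rw [Lfp, mem_mapFp_iff, Submodule.mem_toAddSubgroup, h]
  exact Submodule.mem_top

/-! ### Dimensions -/

section Dim

variable [Finite k]

theorem finrank_selmer_rsFp [Module.Finite k (selmerK T Mk Lk)] :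
    finrank (ZMod p) (selmer (locW1 T (rsFp p Mk)) (Lfp p T Mk Lk)) =
      finrank (ZMod p) k * finrank k (selmerK T Mk Lk) := by
  rw [selmer_rsFp]
  exact finrank_mapFp p (rsH1Equiv p (globalLevel T) Mk) (selmerK T Mk Lk)

theorem finrank_Lfp (v : ↥T) [Module.Finite k (Lk v)] :
    finrank (ZMod p) (Lfp p T Mk Lk v) = finrank (ZMod p) k * finrank k (Lk v) :=
  finrank_mapFp p (locEquiv p T Mk v) (Lk v)

variable {G : Type} [Group G] (A : Rep k G)

/-- The invariants of `A` and of `rsFp p A`, as additive groups. -/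
def invariantsEquiv : A.ρ.invariants ≃+ (rsFp p A).ρ.invariants where
  toFun a := ⟨a.1, (mem_invariants_rsFp_iff p A a.1).2 a.2⟩
  invFun a := ⟨a.1, (mem_invariants_rsFp_iff p A a.1).1 a.2⟩
  left_inv _ := rfl
  right_inv _ := rfl
  map_add' _ _ := rfl

theorem finrank_invariants_rsFp [Module.Finite k A] :
    finrank (ZMod p) (rsFp p A).ρ.invariants =
      finrank (ZMod p) k * finrank k A.ρ.invariants :=
  finrank_zmod_eq_mul_of_addEquiv (k := k) p (invariantsEquiv p A)

/-- The fixed points of `g` on `A` and on `rsFp p A`, as additive groups. -/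
def kerSubOneEquiv (g : G) :
    LinearMap.ker (A.ρ g - 1) ≃+ LinearMap.ker ((rsFp p A).ρ g - 1) where
  toFun a := ⟨a.1, by
    have h : A.ρ g a.1 - a.1 = 0 := a.2
    exact h⟩
  invFun a := ⟨a.1, by
    have h : ((rsFp p A).ρ g) a.1 - a.1 = 0 := a.2
    exact h⟩
  left_inv _ := rfl
  right_inv _ := rfl
  map_add' _ _ := rfl

theorem finrank_kerSubOne_rsFp [Module.Finite k A] (g : G) :
    finrank (ZMod p) (LinearMap.ker ((rsFp p A).ρ g - 1)) =
      finrank (ZMod p) k * finrank k (LinearMap.ker (A.ρ g - 1)) :=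
  finrank_zmod_eq_mul_of_addEquiv (k := k) p (kerSubOneEquiv p A g)

/-- `rsFp p A` is finite-dimensional over `ZMod p`. -/
theorem finiteDimensional_rsFp [Module.Finite k A] : FiniteDimensional (ZMod p) (rsFp p A) := by
  haveI : Finite A := Module.finite_of_finite k
  haveI : Finite (rsFp p A) := ‹Finite A›
  exact Module.Finite.of_finite

theorem finrank_rsFp [Module.Finite k A] :
    finrank (ZMod p) (rsFp p A) = finrank (ZMod p) k * finrank k A :=
  finrank_zmod_eq_mul_of_addEquiv (k := k) p (W := A) (W' := rsFp p A) (AddEquiv.refl A)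

end Dim


end Fermat.Agent.TW.GW.SelmerFp

end
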