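import Mathlib
import Fermat.Agent.TW.GW.SelmerFp
import Fermat.Agent.TW.GWB.GWFinal
import Fermat.Agent.TW.GWB.SelmerDual
import Fermat.Agent.TW.GWB.FinH1
import Fermat.Agent.TW.LocalSpan

/-!
# PROGRAM G (S56), block GW-ASSEMBLY: the tangent bound from the blocks (one set of places)

`tangentCardLe_of_blocks`: for `T ∋ p` a finite set of primes, `Qs ⊆ T` the Taylor–Wiles places,
`𝒟` a deformation condition, the tangent set of `𝒟` is classified by `k ^ #Qs` provided

* (SEL) `hdet`, `hur`: type-`𝒟` deformations to `k[ε]` have cyclotomic determinant and are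
  unramified outside `T` (helper19's `tangentCardLe_of_tanClasses_subset`);
* (GW) `hE : Euler.EulerGlobOut`, `hA : Euler.ArchOut` (helper8), consumed through helper21's
  `gw_of_eulerGlobOut` for `M := rsFp p (ad⁰ ρbar)`;
* (LOC) `hLOC`: `dim L_v ≤ h⁰_v + δ_v` for `v ∈ T ∖ Qs` (`L_v = localTanSpan`), `hLOCq`:
  `dim H¹(G_v, ad⁰) ≤ h⁰_v + δ_v` for `v ∈ Qs`, with `Σ δ_v ≤ 1 + #Qs`;
* (H0) `hH0`, (INF) `hINF`;
* (TW) `hTW`: a class of `H¹(G_T, M*)` which is locally trivial at `Qs` is trivial.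
-/

set_option autoImplicit false
set_option linter.unusedSectionVars false
set_option linter.style.haveILetI false

open CategoryTheory ExtCitation Module IsLocalRing

noncomputable section

namespace Fermat.Agent.TW.GW.Package

open Fermat.Agent.CFT Fermat.Agent.CFT.PT Fermat.Agent.S55
open Fermat.Agent.TW.GWB Fermat.Agent.TW.GW.Count Fermat.Agent.TW.GW.LinAlg
open Fermat.Agent.TW.GW.RestrictFp Fermat.Agent.TW.GW.SelmerFp
open Fermat.Agent.TW.Ad0 Fermat.Agent.TW.Sel Fermat.Agent.TW.Contracts Fermat.Agent.TW.LocalSpan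
open Fermat.Agent.TW.Euler

local notation "GQ" => (AlgebraicClosure ℚ ≃ₐ[ℚ] AlgebraicClosure ℚ)

variable {𝒪 : Type} [CommRing 𝒪] [IsLocalRing 𝒪]

local notation "kk" => ResidueField 𝒪

variable (p : ℕ) [Fact p.Prime] [Finite (ResidueField 𝒪)] [Algebra (ZMod p) (ResidueField 𝒪)]
  (ρbar : ResidualGaloisRep (ResidueField 𝒪)) (𝒟 : Cond 𝒪) (T : Finset Nat.Primes)
  (Qs : Finset Nat.Primes)

open Classical in
/-- The local conditions of the assembly: everything at the Taylor–Wiles places, the span of the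
tangent classes at the other places. -/
def Lk (v : ↥T) : Submodule kk (H1k (k := ResidueField 𝒪) T (ad0Rep ρbar) v) :=
  if v.1 ∈ Qs then ⊤ else localTanSpan ρbar 𝒟 T v.1

theorem Lk_of_mem (v : ↥T) (hv : v.1 ∈ Qs) : Lk ρbar 𝒟 T Qs v = ⊤ := by
  rw [Lk, if_pos hv]

theorem Lk_of_not_mem (v : ↥T) (hv : v.1 ∉ Qs) :
    Lk ρbar 𝒟 T Qs v = localTanSpan ρbar 𝒟 T v.1 := by
  rw [Lk, if_neg hv]

/-- The tangent classes lie in the Selmer group of the assembly. -/
theorem tanClasses_subset_selmerK :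
    tanClasses ρbar 𝒟 T ⊆
      (selmerK T (ad0Rep ρbar) (Lk ρbar 𝒟 T Qs) : Set (LC.H1 (globalLevel T) (ad0Rep ρbar))) := by
  intro x hx
  rw [SetLike.mem_coe, mem_selmerK_iff]
  intro v
  by_cases hv : v.1 ∈ Qs
  · rw [Lk_of_mem ρbar 𝒟 T Qs v hv]
    exact Submodule.mem_top
  · rw [Lk_of_not_mem ρbar 𝒟 T Qs v hv]
    exact Submodule.subset_span ⟨x, hx, rfl⟩

/-- `[k : 𝔽_p] > 0`. -/
theorem finrank_zmod_pos : 0 < finrank (ZMod p) (ResidueField 𝒪) := by
  haveI : Module.Finite (ZMod p) (ResidueField 𝒪) := Module.Finite.of_finite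
  exact Module.finrank_pos

instance instFiniteSl : Module.Finite (ResidueField 𝒪) (ad0Rep ρbar) :=
  inferInstanceAs (Module.Finite (ResidueField 𝒪) (sl ρbar))

/-- **The tangent bound from the blocks** (one set of places `T`, Taylor–Wiles places `Qs`). -/
theorem tangentCardLe_of_blocks (hp2 : p ≠ 2) (hpT : pPrime p ∈ T)
    (hsm : IsSmooth (globalLevel T) (ad0Rep ρbar))
    (hE : EulerGlobOut) (hA : ArchOut)
    (hdet : letI : Algebra 𝒪 (DualNumber kk) := dualNumberAlgebra 𝒪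
      ∀ ρ : GaloisRepAdic (DualNumber kk), 𝒟 ρ → ρ.DetIsCyclotomic p)
    (hur : letI : Algebra 𝒪 (DualNumber kk) := dualNumberAlgebra 𝒪
      ∀ ρ : GaloisRepAdic (DualNumber kk), 𝒟 ρ → ∀ q : Nat.Primes, q ∉ T →
        ρ.IsUnramifiedAt (q : ℕ))
    (δ : ↥T → ℕ)
    (hLOC : ∀ v : ↥T, v.1 ∉ Qs → LocBound ρbar 𝒟 T v.1 (δ v))
    (hLOCq : ∀ v : ↥T, v.1 ∈ Qs → Module.Finite kk (H1v ρbar v.1) ∧
      finrank kk (H1v ρbar v.1) ≤
        finrank kk (Rep.res (primeLocalToGlobal v.1) (ad0Rep ρbar)).ρ.invariants + δ v)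
    (hδ : ∑ v : ↥T, δ v ≤ 1 + Qs.card)
    (hH0 : finrank kk (ad0Rep ρbar).ρ.invariants = 0)
    (hINF : finrank kk (LinearMap.ker ((ad0Rep ρbar).ρ complexConjugation - 1)) = 1)
    (hTW : ∀ x : LC.H1 (globalLevel T) (dualTw p (rsFp p (ad0Rep ρbar))),
      (∀ v : ↥T, v.1 ∈ Qs →
        lcResH1 (dualTw p (rsFp p (ad0Rep ρbar)))
          (levelCompat_globalLevel (primeLocalToGlobal v.1) T) x = 0) → x = 0) :
    TangentCardLe 𝒪 ρbar 𝒟 Qs.card := by
  classical
  set Mk : Rep kk GQ := ad0Rep ρbar with hMk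
  set M : Rep (ZMod p) GQ := rsFp p Mk with hMdef
  have hM : IsSmooth (globalLevel T) M := (isSmooth_rsFp_iff p (globalLevel T) Mk).2 hsm
  haveI : FiniteDimensional (ZMod p) M := finiteDimensional_rsFp p Mk
  haveI : Finite M := Module.finite_of_finite (ZMod p)
  -- finiteness of the Selmer group
  haveI : Finite (LC.H1 (globalLevel T) M) := finite_H1_global T hp2 hpT M hM
  haveI : Finite (LC.H1 (globalLevel T) Mk) :=
    Finite.of_equiv _ (rsH1Equiv p (globalLevel T) Mk).symm.toEquiv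
  set W := selmerK T Mk (Lk ρbar 𝒟 T Qs) with hW
  haveI : Finite W := Finite.of_injective (fun x : W => (x : LC.H1 (globalLevel T) Mk))
    Subtype.val_injective
  haveI : Module.Finite kk W := Module.Finite.of_finite
  -- (SEL)
  have hsel : TangentCardLe 𝒪 ρbar 𝒟 (finrank kk W) :=
    tangentCardLe_of_tanClasses_subset ρbar 𝒟 T hdet hur W
      (tanClasses_subset_selmerK ρbar 𝒟 T Qs)
  refine hsel.mono 𝒪 ?_
  -- local conditions: finiteness and bounds
  have hLfin : ∀ v : ↥T, Module.Finite kk (Lk ρbar 𝒟 T Qs v) := by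
    intro v
    by_cases hv : v.1 ∈ Qs
    · rw [Lk_of_mem ρbar 𝒟 T Qs v hv]
      haveI := (hLOCq v hv).1
      exact inferInstanceAs (Module.Finite kk (⊤ : Submodule kk (H1v ρbar v.1)))
    · rw [Lk_of_not_mem ρbar 𝒟 T Qs v hv]
      exact (hLOC v hv).1
  have hLle : ∀ v : ↥T, finrank kk (Lk ρbar 𝒟 T Qs v) ≤
      finrank kk (Rep.res (primeLocalToGlobal v.1) Mk).ρ.invariants + δ v := by
    intro v
    by_cases hv : v.1 ∈ Qs
    · rw [Lk_of_mem ρbar 𝒟 T Qs v hv, finrank_top]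
      exact (hLOCq v hv).2
    · rw [Lk_of_not_mem ρbar 𝒟 T Qs v hv]
      exact (hLOC v hv).2
  -- (GW)
  have hgw := gw_of_eulerGlobOut p T hpT M hM hE hA hp2 (Lfp p T Mk (Lk ρbar 𝒟 T Qs))
  -- the dual Selmer group vanishes
  have hdual : selmer (locW1 T (dualTw p M))
      (fun v => orthR (tateWD p T hpT M hM v) (Lfp p T Mk (Lk ρbar 𝒟 T Qs) v)) = ⊥ := by
    rw [eq_bot_iff]
    intro x hx
    rw [Submodule.mem_bot]
    refine hTW x fun v hv => ?_
    exact lcResH1_eq_zero_of_mem_dualSelmer p T hpT M hM (Lfp p T Mk (Lk ρbar 𝒟 T Qs)) v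
      (Lfp_eq_top p T Mk _ v (Lk_of_mem ρbar 𝒟 T Qs v hv)) x hx
  rw [hdual, finrank_bot] at hgw
  -- translate the dimensions
  set e := finrank (ZMod p) kk with he
  have he0 : 0 < e := finrank_zmod_pos p
  have h1 : finrank (ZMod p) ↥(selmer (locW1 T M) (Lfp p T Mk (Lk ρbar 𝒟 T Qs))) =
      e * finrank kk W := finrank_selmer_rsFp p T Mk (Lk ρbar 𝒟 T Qs)
  have h2 : ∀ v : ↥T, finrank (ZMod p) ↥(Lfp p T Mk (Lk ρbar 𝒟 T Qs) v) =
      e * finrank kk (Lk ρbar 𝒟 T Qs v) := fun v => by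
    haveI := hLfin v
    exact finrank_Lfp p T Mk (Lk ρbar 𝒟 T Qs) v
  have h3 : ∀ v : ↥T, finrank (ZMod p) ↥((Rep.res (primeLocalToGlobal v.1) M).ρ.invariants) =
      e * finrank kk (Rep.res (primeLocalToGlobal v.1) Mk).ρ.invariants := fun v => by
    haveI : Module.Finite kk (Rep.res (primeLocalToGlobal v.1) Mk) :=
      inferInstanceAs (Module.Finite kk Mk)
    exact finrank_invariants_rsFp p (Rep.res (primeLocalToGlobal v.1) Mk)
  have h4 : finrank (ZMod p) ↥(M.ρ.invariants) = e * finrank kk Mk.ρ.invariants :=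
    finrank_invariants_rsFp p Mk
  have h5 : hInf M = e * finrank kk (LinearMap.ker (Mk.ρ complexConjugation - 1)) :=
    finrank_kerSubOne_rsFp p Mk complexConjugation
  rw [h1, h4, h5, hH0, hINF, Finset.sum_congr rfl (fun v _ => h2 v),
    Finset.sum_congr rfl (fun v _ => h3 v), ← Finset.mul_sum, ← Finset.mul_sum] at hgw
  -- arithmetic
  have hsum : ∑ v : ↥T, finrank kk (Lk ρbar 𝒟 T Qs v) ≤
      ∑ v : ↥T, finrank kk (Rep.res (primeLocalToGlobal v.1) Mk).ρ.invariants +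
        (1 + Qs.card) := by
    calc ∑ v : ↥T, finrank kk (Lk ρbar 𝒟 T Qs v)
        ≤ ∑ v : ↥T, (finrank kk (Rep.res (primeLocalToGlobal v.1) Mk).ρ.invariants + δ v) :=
          Finset.sum_le_sum fun v _ => hLle v
      _ = ∑ v : ↥T, finrank kk (Rep.res (primeLocalToGlobal v.1) Mk).ρ.invariants +
            ∑ v : ↥T, δ v := Finset.sum_add_distrib
      _ ≤ _ := Nat.add_le_add_left hδ _
  have hmul := Nat.mul_le_mul_left e hsum
  have hfin : e * finrank kk W ≤ e * Qs.card := by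
    have := hgw
    rw [mul_add, mul_add, mul_one] at hmul
    omega
  exact Nat.le_of_mul_le_mul_left hfin he0


end Fermat.Agent.TW.GW.Package

end
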