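import Mathlib
import Fermat.Agent.TW.GW.Package
import Fermat.Agent.TW.Cheb.Main
import Fermat.Agent.TW.H0
import Fermat.Agent.TW.INF

/-!
# PROGRAM G (S56), block GW-ASSEMBLY: `TWPrimesOut` from the blocks

`twPrimesOut_of_blocks`: the arithmetic output `Contracts.TWPrimesOut c p ρbar S Smin` of S56 for a
base condition `c` (strict-ordinary or flat) from

* the hypotheses `Contracts.Hyp` of S56;
* (GW) helper8's `Euler.EulerGlobOut`, `Euler.ArchOut` (through helper21's `gw_of_eulerGlobOut`);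
* (TW) helper27's `Cheb.tw_primes`, with helper19's `AdjointModel` for `M* = dualTw p (rsFp ad⁰)`;
* (SEL) helper19's `tangentCardLe_of_tanClasses_subset`, with `hdet𝒟`, `hur𝒟`;
* (LOC-p), (LOC-S), (LOC-q) in helper25's vocabulary `LocalSpan.LocBound`;
* (H0), (INF) helper23;
* `hsm`: smoothness of `ad⁰ ρbar` for the levels unramified outside `Smin`.
-/

set_option autoImplicit false
set_option linter.unusedSectionVars false
set_option linter.style.haveILetI false

open CategoryTheory ExtCitation Module IsLocalRing Polynomial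

noncomputable section

namespace Fermat.Agent.TW.GW.Final

open Fermat.Agent.CFT Fermat.Agent.CFT.PT Fermat.Agent.S55
open Fermat.Agent.TW.GWB Fermat.Agent.TW.GW.RestrictFp Fermat.Agent.TW.GW.Package
open Fermat.Agent.TW.Ad0 Fermat.Agent.TW.Sel Fermat.Agent.TW.Contracts Fermat.Agent.TW.LocalSpan
open Fermat.Agent.TW.Euler Fermat.Agent.TW.Cheb

local notation "GQ" => (AlgebraicClosure ℚ ≃ₐ[ℚ] AlgebraicClosure ℚ)

/-- The set of primes of a finite set of natural numbers. -/
def primesOf (A : Finset ℕ) : Finset Nat.Primes := Finset.subtype Nat.Prime A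

theorem mem_primesOf {A : Finset ℕ} {q : Nat.Primes} : q ∈ primesOf A ↔ (q : ℕ) ∈ A :=
  Finset.mem_subtype

theorem card_primesOf {A : Finset ℕ} (hA : ∀ q ∈ A, q.Prime) : (primesOf A).card = A.card := by
  have h : (Finset.subtype Nat.Prime A).card = A.card := by
    rw [Finset.card_subtype, Finset.filter_true_of_mem hA]
  exact h

/-- The fixed points of the complex conjugation are the invariants of the archimedean
decomposition group. -/
theorem ker_complexConjugation_eq {k : Type} [Field k] (A : Rep k GQ) :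
    LinearMap.ker (A.ρ complexConjugation - 1) = (Rep.res archimedeanLoc A).ρ.invariants := by
  ext a
  rw [LinearMap.mem_ker, LinearMap.sub_apply, Module.End.one_apply, sub_eq_zero,
    Representation.mem_invariants]
  constructor
  · rintro h ⟨g, hg⟩
    obtain ⟨n, rfl⟩ := Subgroup.mem_zpowers_iff.1 hg
    show A.ρ (complexConjugation ^ n) a = a
    have hpow : ∀ m : ℕ, A.ρ (complexConjugation ^ m) a = a := by
      intro m
      induction m with
      | zero => rw [pow_zero, map_one]; rfl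
      | succ m ih => rw [pow_succ, map_mul, Module.End.mul_apply, h, ih]
    rcases Int.eq_nat_or_neg n with ⟨m, rfl | rfl⟩
    · rw [zpow_natCast]; exact hpow m
    · rw [zpow_neg, zpow_natCast, ← inv_pow, complexConjugation_inv]; exact hpow m
  · intro h
    exact h archimedeanGen

variable {𝒪 : Type} [CommRing 𝒪] [IsDomain 𝒪] [IsDiscreteValuationRing 𝒪]
  [Finite (ResidueField 𝒪)]

local notation "kk" => ResidueField 𝒪

/-- **`TWPrimesOut` from the blocks.** -/
theorem twPrimesOut_of_blocks (c : ℕ → Finset ℕ → Cond 𝒪) (p : ℕ) [Fact p.Prime]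
    [Algebra (ZMod p) (ResidueField 𝒪)]
    (ρbar : ResidualGaloisRep (ResidueField 𝒪)) (S Smin : Finset ℕ)
    (H : Hyp 𝒪 p ρbar S Smin)
    (hE : EulerGlobOut) (hA : ArchOut)
    (hAdj : AdjointModel ρbar (dualTw p (rsFp p (ad0Rep ρbar))))
    (hsm : ∀ T : Finset Nat.Primes, primesOf Smin ⊆ T →
      IsSmooth (globalLevel T) (ad0Rep ρbar))
    (hdet𝒟 : ∀ Q : Finset ℕ, letI : Algebra 𝒪 (DualNumber kk) := dualNumberAlgebra 𝒪
      ∀ ρ : GaloisRepAdic (DualNumber kk), condQ c p Smin Q ρ → ρ.DetIsCyclotomic p)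
    (hur𝒟 : ∀ Q : Finset ℕ, letI : Algebra 𝒪 (DualNumber kk) := dualNumberAlgebra 𝒪
      ∀ ρ : GaloisRepAdic (DualNumber kk), condQ c p Smin Q ρ →
        ∀ q : Nat.Primes, q ∉ primesOf (Smin ∪ Q) → ρ.IsUnramifiedAt (q : ℕ))
    (hLOCp : ∀ Q : Finset ℕ, IsAux p ρbar S Q →
      LocBound ρbar (condQ c p Smin Q) (primesOf (Smin ∪ Q)) (pPrime p) 1)
    (hLOCS : ∀ Q : Finset ℕ, IsAux p ρbar S Q → ∀ v : Nat.Primes, (v : ℕ) ∈ Smin → (v : ℕ) ≠ p →
      LocBound ρbar (condQ c p Smin Q) (primesOf (Smin ∪ Q)) v 0)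
    (hLOCq : ∀ Q : Finset ℕ, IsAux p ρbar S Q → ∀ v : Nat.Primes, (v : ℕ) ∈ Q →
      Module.Finite kk (H1v ρbar v) ∧
        finrank kk (H1v ρbar v) ≤
          finrank kk (Rep.res (primeLocalToGlobal v) (ad0Rep ρbar)).ρ.invariants + 1) :
    TWPrimesOut c p ρbar S Smin := by
  classical
  have hp2 := H.hp2
  set M : Rep (ZMod p) GQ := rsFp p (ad0Rep ρbar) with hMdef
  haveI : FiniteDimensional (ZMod p) M := SelmerFp.finiteDimensional_rsFp p (ad0Rep ρbar)
  -- the minimal level
  have hpT₀ : pPrime p ∈ primesOf Smin := mem_primesOf.2 H.hpSmin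
  have hM₀ : IsSmooth (globalLevel (primesOf Smin)) M :=
    (isSmooth_rsFp_iff p _ (ad0Rep ρbar)).2 (hsm _ (Finset.Subset.refl _))
  haveI := fd_dualTw p M
  haveI : Module.Finite (ZMod p) (LC.H1 (globalLevel (primesOf Smin)) (dualTw p M)) :=
    finiteDimensional_H1_global (primesOf Smin) hp2 hpT₀ (dualTw p M)
      (isSmooth_dualTw p (primesOf Smin) hpT₀ M hM₀)
  obtain ⟨r, hr⟩ := tw_primes p hp2 ρbar H.habs H.hdet H.hsplit H.hTW S Smin H.hpSmin H.hSmin
    H.hmin (primesOf Smin) (fun q => mem_primesOf) (dualTw p M) hAdj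
  refine ⟨r, fun n => ?_⟩
  obtain ⟨qv, hinj, hprime, hfrob, hkill⟩ := hr n
  have hfam : IsTWFamily p ρbar S n qv := ⟨hinj, hprime, hfrob⟩
  refine ⟨qv, hfam, ?_⟩
  set Q : Finset ℕ := Finset.univ.image qv with hQ
  have haux : IsAux p ρbar S Q := hfam.isAux
  have hQprime : ∀ q ∈ Q, q.Prime := fun q hq => (haux q hq).1
  have hcard : (primesOf Q).card = r := by
    rw [card_primesOf hQprime, hQ, Finset.card_image_of_injective _ hinj, Finset.card_univ,
      Fintype.card_fin]
  set T : Finset Nat.Primes := primesOf (Smin ∪ Q) with hT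
  set Qs : Finset Nat.Primes := primesOf Q with hQs
  have hpT : pPrime p ∈ T := mem_primesOf.2 (Finset.mem_union_left _ H.hpSmin)
  have hT₀T : primesOf Smin ⊆ T := fun q hq =>
    mem_primesOf.2 (Finset.mem_union_left _ (mem_primesOf.1 hq))
  have h2 : (2 : kk) ≠ 0 := INF.two_ne_zero_of_detIsCyclotomic ρbar H.hp hp2 H.hdet
  -- the defects
  let δ : ↥T → ℕ := fun v => (if v.1 = pPrime p then 1 else 0) + (if v.1 ∈ Qs then 1 else 0)
  have hδ : ∑ v : ↥T, δ v ≤ 1 + Qs.card := by
    have h1 : ∑ v : ↥T, (if v.1 = pPrime p then 1 else 0) ≤ 1 := by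
      rw [Finset.sum_coe_sort T (fun v => if v = pPrime p then 1 else 0),
        Finset.sum_ite_eq' T (pPrime p)]
      split_ifs <;> simp
    have h2' : ∑ v : ↥T, (if v.1 ∈ Qs then 1 else 0) ≤ Qs.card := by
      rw [Finset.sum_coe_sort T (fun v => if v ∈ Qs then 1 else 0), ← Finset.card_filter]
      exact Finset.card_le_card (fun v hv => (Finset.mem_filter.1 hv).2)
    calc ∑ v : ↥T, δ v
        = ∑ v : ↥T, (if v.1 = pPrime p then 1 else 0) +
            ∑ v : ↥T, (if v.1 ∈ Qs then 1 else 0) := Finset.sum_add_distrib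
      _ ≤ 1 + Qs.card := Nat.add_le_add h1 h2'
  have key := tangentCardLe_of_blocks p ρbar (condQ c p Smin Q) T Qs hp2 hpT (hsm T hT₀T) hE hA
    (hdet𝒟 Q) (hur𝒟 Q) δ ?_ ?_ hδ (H0.finrank_invariants_ad0Rep ρbar H.habs h2) ?_ ?_
  · rw [hcard] at key
    exact key
  · -- (LOC) outside the Taylor–Wiles places
    intro v hv
    have hvQ : (v.1 : ℕ) ∉ Q := fun h => hv (mem_primesOf.2 h)
    have hvS : (v.1 : ℕ) ∈ Smin := by
      rcases Finset.mem_union.1 (mem_primesOf.1 v.2) with h | h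
      · exact h
      · exact absurd h hvQ
    by_cases hvp : v.1 = pPrime p
    · have hδv : δ v = 1 := by
        show (if v.1 = pPrime p then 1 else 0) + (if v.1 ∈ Qs then 1 else 0) = 1
        rw [if_pos hvp, if_neg hv]
      rw [hδv, hvp]
      exact hLOCp Q haux
    · have hδv : δ v = 0 := by
        show (if v.1 = pPrime p then 1 else 0) + (if v.1 ∈ Qs then 1 else 0) = 0
        rw [if_neg hvp, if_neg hv]
      rw [hδv]
      exact hLOCS Q haux v.1 hvS (fun h => hvp (Subtype.ext h))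
  · -- (LOC-q)
    intro v hv
    obtain ⟨hf, hle⟩ := hLOCq Q haux v.1 (mem_primesOf.1 hv)
    refine ⟨hf, hle.trans ?_⟩
    have hδv : 1 ≤ δ v := by
      show 1 ≤ (if v.1 = pPrime p then 1 else 0) + (if v.1 ∈ Qs then 1 else 0)
      rw [if_pos hv]
      exact Nat.le_add_left _ _
    exact Nat.add_le_add_left hδv _
  · -- (INF)
    rw [ker_complexConjugation_eq]
    exact INF.finrank_invariants_archimedean ρbar H.hp hp2 H.hdet
  · -- (TW)
    intro x hx
    refine hkill T (fun q => mem_primesOf) x fun q hq => ?_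
    exact hx ⟨q, mem_primesOf.2 (Finset.mem_union_right _ hq)⟩ (mem_primesOf.2 hq)


end Fermat.Agent.TW.GW.Final

end
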