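import Mathlib
import Fermat.Agent.TW.GW.Final
import Fermat.Agent.TW.Loc.LocBound
import Fermat.Agent.TW.Ord.LocBound
import Fermat.Agent.TW.Sel.TraceDualFp

/-!
# PROGRAM G (S56), block GW-ASSEMBLY: `Contracts.ArithOut` from the blocks

* `isSmooth_ad0Rep` : `ad⁰ ρbar` is smooth for `globalLevel T` as soon as `ρbar` is unramified
  outside `T`;
* `arithOut_of_locP` : `ArithOut c` for a base condition `c` implying cyclotomic determinant and
  unramifiedness outside the level, from helper8's `EulerGlobOut`, `ArchOut` and the local bound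
  (LOC-p) at `p`.  Everything else is consumed inside: helper27's `tw_primes` with helper19's
  `adjointModelFp`, helper21's `gw_of_eulerGlobOut`, helper19's (SEL), helper23's (LOC-S), (LOC-q),
  (H0), (INF);
* `arithOut_ord` : `ArithOut` for the strict-ordinary condition, from `EulerGlobOut`, `ArchOut`
  only (helper19's `locBound_ord_condQ`);
* `arithOut_flat` : `ArithOut` for the flat condition, from `EulerGlobOut`, `ArchOut` and
  helper25's contract `LocFlatOut` (the literal type of his `locBound_flat`).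
-/

set_option autoImplicit false
set_option linter.unusedSectionVars false
set_option linter.style.haveILetI false

open CategoryTheory ExtCitation Module IsLocalRing Polynomial

noncomputable section

namespace Fermat.Agent.TW.GW.ArithOut

open Fermat.Agent.CFT Fermat.Agent.CFT.PT Fermat.Agent.S55
open Fermat.Agent.TW.GWB Fermat.Agent.TW.GW.RestrictFp Fermat.Agent.TW.GW.Package
open Fermat.Agent.TW.GW.Final
open Fermat.Agent.TW.Ad0 Fermat.Agent.TW.Sel Fermat.Agent.TW.Contracts Fermat.Agent.TW.LocalSpan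
open Fermat.Agent.TW.Euler Fermat.Agent.TW.Cheb

local notation "GQ" => (AlgebraicClosure ℚ ≃ₐ[ℚ] AlgebraicClosure ℚ)

section Smooth

variable {k : Type} [Field k] (ρbar : ResidualGaloisRep k)

/-- `ker ρbar` acts trivially on `ad⁰ ρbar`. -/
theorem ad0Rep_ρ_eq_self {σ : GQ} (h : ρbar.ρ σ = 1) (a : ad0Rep ρbar) :
    (ad0Rep ρbar).ρ σ a = a := by
  have hi : ρbar.ρ σ⁻¹ = 1 := by
    have h1 := rho_mul_rho_inv ρbar σ
    rwa [h, one_mul] at h1
  apply Subtype.ext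
  have h2 := coe_ad0Repn_apply ρbar σ a
  rw [h, hi, one_mul, mul_one] at h2
  exact h2

/-- `ad⁰ ρbar` is smooth for `globalLevel T` as soon as `ρbar` is unramified outside `T`. -/
theorem isSmooth_ad0Rep (T : Finset Nat.Primes)
    (hunr : ∀ q : Nat.Primes, q ∉ T → ρbar.IsUnramifiedAt (q : ℕ)) :
    IsSmooth (globalLevel T) (ad0Rep ρbar) := by
  obtain ⟨F, hfd, hgal, hfix⟩ := exists_kerField_residual ρbar
  intro a
  refine ⟨F.fixingSubgroup, ⟨F, hgal, ⟨hfd, fun q hq A hA σ hσ => ?_⟩, rfl⟩, fun g hg => ?_⟩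
  · rw [hfix]
    exact MonoidHom.mem_ker.mpr (hunr q hq A hA σ hσ)
  · rw [hfix] at hg
    exact ad0Rep_ρ_eq_self ρbar (MonoidHom.mem_ker.mp hg) a

end Smooth

section Hyp

variable {𝒪 : Type} [CommRing 𝒪] [IsDomain 𝒪] [IsDiscreteValuationRing 𝒪] {p : ℕ}
  {ρbar : ResidualGaloisRep (ResidueField 𝒪)} {S Smin : Finset ℕ}

/-- Under the hypotheses of S56, `ρbar` is unramified outside every `T ⊇ Smin`. -/
theorem isUnramifiedAt_of_hyp (H : Hyp 𝒪 p ρbar S Smin) (T : Finset Nat.Primes)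
    (hT : primesOf Smin ⊆ T) (q : Nat.Primes) (hq : q ∉ T) : ρbar.IsUnramifiedAt (q : ℕ) := by
  have hqS : (q : ℕ) ∉ Smin := fun h => hq (hT (mem_primesOf.2 h))
  have hqp : (q : ℕ) ≠ p := fun h => hqS (h ▸ H.hpSmin)
  by_contra hn
  exact hqS ((H.hmin q q.2 hqp).mpr hn)

/-- Under the hypotheses of S56, `ad⁰ ρbar` is smooth for every level `T ⊇ Smin`. -/
theorem isSmooth_ad0Rep_of_hyp (H : Hyp 𝒪 p ρbar S Smin) (T : Finset Nat.Primes)
    (hT : primesOf Smin ⊆ T) : IsSmooth (globalLevel T) (ad0Rep ρbar) :=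
  isSmooth_ad0Rep ρbar T (isUnramifiedAt_of_hyp H T hT)

end Hyp

/-- **`ArithOut` from the blocks**, for a base condition `c` implying cyclotomic determinant and
unramifiedness outside the level: only helper8's `EulerGlobOut`, `ArchOut` and the local bound at
`p` remain. -/
theorem arithOut_of_locP (c : ∀ (𝒪 : Type) [CommRing 𝒪], ℕ → Finset ℕ → Cond 𝒪)
    (hcdet : ∀ (𝒪 : Type) [CommRing 𝒪] [IsLocalRing 𝒪] (p : ℕ) (T : Finset ℕ),
      letI : Algebra 𝒪 (DualNumber (ResidueField 𝒪)) := dualNumberAlgebra 𝒪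
      ∀ ρ : GaloisRepAdic (DualNumber (ResidueField 𝒪)), c 𝒪 p T ρ → ρ.DetIsCyclotomic p)
    (hcur : ∀ (𝒪 : Type) [CommRing 𝒪] [IsLocalRing 𝒪] (p : ℕ) (T : Finset ℕ),
      letI : Algebra 𝒪 (DualNumber (ResidueField 𝒪)) := dualNumberAlgebra 𝒪
      ∀ ρ : GaloisRepAdic (DualNumber (ResidueField 𝒪)), c 𝒪 p T ρ →
        ∀ q : ℕ, q.Prime → q ∉ T → ρ.IsUnramifiedAt q)
    (hE : EulerGlobOut) (hA : ArchOut)
    (hLOCp : ∀ (𝒪 : Type) [CommRing 𝒪] [IsDomain 𝒪] [IsDiscreteValuationRing 𝒪]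
      [Finite (ResidueField 𝒪)] (p : ℕ) [Fact p.Prime]
      (ρbar : ResidualGaloisRep (ResidueField 𝒪)) (S Smin : Finset ℕ), Hyp 𝒪 p ρbar S Smin →
      ∀ Q : Finset ℕ, IsAux p ρbar S Q →
        LocBound ρbar (condQ (c 𝒪) p Smin Q) (primesOf (Smin ∪ Q)) (pPrime p) 1) :
    Contracts.ArithOut c := by
  intro 𝒪 _ _ _ _ _ p ρbar S Smin H
  haveI : Fact p.Prime := ⟨H.hp⟩
  have hpk : (p : ResidueField 𝒪) = 0 := Loc.natCast_residueField_eq_zero H
  haveI : CharP (ResidueField 𝒪) p := (CharP.charP_iff_prime_eq_zero H.hp).2 hpk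
  letI : Algebra (ZMod p) (ResidueField 𝒪) := ZMod.algebra (ResidueField 𝒪) p
  have h2 : (2 : ResidueField 𝒪) ≠ 0 := Loc.two_ne_zero_of_hyp H
  refine twPrimesOut_of_blocks (c 𝒪) p ρbar S Smin H hE hA
    (TraceDual.adjointModelFp p ρbar H.hp2 H.hdet)
    (fun T hT => isSmooth_ad0Rep_of_hyp H T hT)
    (fun Q ρ hρ => hcdet 𝒪 p (Smin ∪ Q) ρ hρ.1)
    (fun Q ρ hρ q hq => hcur 𝒪 p (Smin ∪ Q) ρ hρ.1 q q.2 (fun h => hq (mem_primesOf.2 h)))
    (fun Q hQ => hLOCp 𝒪 p ρbar S Smin H Q hQ)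
    (fun Q _ v hv hvp => Loc.locBound_unip_of_hyp H (c 𝒪) Q _ v hv hvp)
    (fun Q hQ v hv => ?_)
  obtain ⟨-, hvS, hpv, hfrob⟩ := hQ v hv
  have hvp : (v : ℕ) ≠ p := fun h => hvS (h ▸ H.hSmin H.hpSmin)
  have hur : ρbar.IsUnramifiedAt v := by
    by_contra hn
    exact hvS (H.hSmin ((H.hmin v v.2 hvp).mpr hn))
  exact Loc.finrank_H1_prime_le v hpk h2 hpv hur hfrob

/-- **`ArithOut` for the strict-ordinary condition**: only `EulerGlobOut` and `ArchOut` remain. -/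
theorem arithOut_ord (hE : EulerGlobOut) (hA : ArchOut) :
    Contracts.ArithOut (fun 𝒪 _ p T => GaloisRep.strictOrdinaryCondition 𝒪 p T) := by
  refine arithOut_of_locP _ (fun 𝒪 _ _ p T ρ hρ => hρ.1) (fun 𝒪 _ _ p T ρ hρ => hρ.2.2) hE hA ?_
  intro 𝒪 _ _ _ _ p _ ρbar S Smin H Q _
  have hpk : (p : ResidueField 𝒪) = 0 := Loc.natCast_residueField_eq_zero H
  exact Ord.locBound_ord_condQ (pPrime p) H.hp2 hpk ρbar Smin Q _

/-- helper25's contract (LOC-flat): the literal type of `LocFlat.locBound_flat`, over all inputs. -/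
def LocFlatOut : Prop :=
  ∀ (𝒪 : Type) [CommRing 𝒪] [IsLocalRing 𝒪] (p : ℕ) [hp : Fact p.Prime], p ≠ 2 →
    ∀ [CharP (ResidueField 𝒪) p] [Finite (ResidueField 𝒪)]
      (ρbar : ResidualGaloisRep (ResidueField 𝒪)),
      (GaloisRepAdic.ofResidualGaloisRep ρbar).DetIsCyclotomic p →
      (∀ σ : GQ, ∃ α β : ResidueField 𝒪,
        LinearMap.charpoly (ρbar.ρ σ) = (X - C α) * (X - C β)) →
      ∀ 𝒟 : Cond 𝒪,
        (letI : Algebra 𝒪 (DualNumber (ResidueField 𝒪)) := dualNumberAlgebra 𝒪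
          ∀ ρ : GaloisRepAdic (DualNumber (ResidueField 𝒪)), 𝒟 ρ →
            ρ.DetIsCyclotomic p ∧ ρ.IsFlatAt p) →
        ∀ T : Finset Nat.Primes, LocBound ρbar 𝒟 T ⟨p, hp.out⟩ 1

/-- **`ArithOut` for the flat condition**: `EulerGlobOut`, `ArchOut` and (LOC-flat) remain. -/
theorem arithOut_flat (hE : EulerGlobOut) (hA : ArchOut) (hF : LocFlatOut) :
    Contracts.ArithOut (fun 𝒪 _ p T => GaloisRep.flatCondition 𝒪 p T) := by
  refine arithOut_of_locP _ (fun 𝒪 _ _ p T ρ hρ => hρ.1) (fun 𝒪 _ _ p T ρ hρ => hρ.2.2) hE hA ?_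
  intro 𝒪 _ _ _ _ p _ ρbar S Smin H Q _
  have hpk : (p : ResidueField 𝒪) = 0 := Loc.natCast_residueField_eq_zero H
  haveI : CharP (ResidueField 𝒪) p := (CharP.charP_iff_prime_eq_zero H.hp).2 hpk
  exact hF 𝒪 p H.hp2 ρbar H.hdet H.hsplit _ (fun ρ hρ => ⟨hρ.1.1, hρ.1.2.1⟩) _

end Fermat.Agent.TW.GW.ArithOut

end
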