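import Mathlib
import Fermat.Agent.TW.Euler.Final
import Fermat.Agent.TW.Euler.Enlarge.LocalDual
import Fermat.Agent.TW.GW.ArithOut

/-!
# PROGRAM G (S56): the GW–Euler spine closed, and `ArithOut` for the strict-ordinary condition

* `localUnrOut : Enlarge.LocalUnrOut` : helper21's contract of the local block of the
  `T`-enlargement, from helper14's `finrank_unrSub_res` and `orthR_unrSub`;
* `eulerGlobOut : EulerGlobOut` : Tate's global Euler characteristic formula, hypothesis-free
  (helper8's `eulerGlobOut_of_open_nodes`);
* `arithOut_ord_closed` : `Contracts.ArithOut` for the strict-ordinary condition, hypothesis-free;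
* `arithOut_flat_of_locFlatOut` : `Contracts.ArithOut` for the flat condition from helper25's
  `LocFlatOut` alone.
-/

set_option autoImplicit false

open CategoryTheory Module ExtCitation
open Fermat.Agent.CFT Fermat.Agent.CFT.PT Fermat.Agent.S55
open Fermat.Agent.TW.GW.LinAlg Fermat.Agent.TW.GWB Fermat.Agent.TW.Euler

namespace Fermat.Agent.TW.GW.EulerClosed

/-- The local block of the `T`-enlargement (helper21's contract, helper14's theorems). -/
theorem localUnrOut : Enlarge.LocalUnrOut := by
  refine ⟨?_, ?_⟩
  · intro p _ T _ Y _ hY v hv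
    exact Enlarge.finrank_unrSub_res Y hY v hv
  · intro p _ _ T T' hpT hTT' M _ hM v hv
    exact Enlarge.orthR_unrSub T' (hTT' hpT) hpT M hM _ _ v hv

/-- **Tate's global Euler characteristic formula**, hypothesis-free. -/
theorem eulerGlobOut : EulerGlobOut :=
  eulerGlobOut_of_open_nodes localUnrOut

/-- **`ArithOut` for the strict-ordinary condition**, hypothesis-free. -/
theorem arithOut_ord_closed :
    Contracts.ArithOut (fun 𝒪 _ p T => GaloisRep.strictOrdinaryCondition 𝒪 p T) :=
  ArithOut.arithOut_ord eulerGlobOut archOut

/-- **`ArithOut` for the flat condition** from the local bound at `p` alone. -/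
theorem arithOut_flat_of_locFlatOut (hF : ArithOut.LocFlatOut) :
    Contracts.ArithOut (fun 𝒪 _ p T => GaloisRep.flatCondition 𝒪 p T) :=
  ArithOut.arithOut_flat eulerGlobOut archOut hF

end Fermat.Agent.TW.GW.EulerClosed
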