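import Mathlib
import Fermat.Agent.TW.GW.EulerClosed
import Fermat.Agent.TW.LocFlat.Out
import Fermat.Agent.TW.S56OfArith

/-!
# PROGRAM G (S56): the frozen statement from the single remaining node

`s56_of_ordBranch`: the literal frozen statement S56 from the ORD branch of the local bound at `p`
for flat deformation conditions (`LocFlat.OrdBranchOut`, helper19's `locBound_flat_ord`).
Everything else is plugged in: TAN + BC (helper10 `s56_of_arith`), the arithmetic block for both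
conditions (`EulerClosed.arithOut_ord_closed`, `EulerClosed.arithOut_flat_of_locFlatOut`), the SS
branch of LOC-flat (helper25 `locFlatOut_of_ordBranch`).
-/

set_option autoImplicit false

open Polynomial IsLocalRing

namespace Fermat.Agent.TW.GW.S56OfOrdBranch

open Fermat.Agent.TW.Contracts Fermat.Agent.TW.LocFlat

/-- The ORD branch of LOC-flat over all inputs (the hypothesis of `locFlatOut_of_ordBranch`). -/
def OrdBranchAll : Prop :=
  ∀ (𝒪 : Type) [CommRing 𝒪] [IsLocalRing 𝒪] (p : ℕ) [Fact p.Prime], p ≠ 2 →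
    ∀ [CharP (ResidueField 𝒪) p] [Finite (ResidueField 𝒪)], OrdBranchOut 𝒪 p

/-- helper25's output in the shape of the GW assembly. -/
theorem locFlatOut (hOrd : OrdBranchAll) : Fermat.Agent.TW.GW.ArithOut.LocFlatOut :=
  locFlatOut_of_ordBranch hOrd

/-- **The frozen statement S56 from the ORD branch of LOC-flat.** -/
theorem s56_of_ordBranch (hOrd : OrdBranchAll)
    {𝒪 : Type} [CommRing 𝒪] [IsDomain 𝒪] [IsDiscreteValuationRing 𝒪]
    [IsAdicComplete (maximalIdeal 𝒪) 𝒪] [Finite (ResidueField 𝒪)]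
    (p : ℕ) [Fact p.Prime] (hp2 : p ≠ 2) (hp𝒪 : (p : 𝒪) ∈ maximalIdeal 𝒪)
    (ρbar : ResidualGaloisRep (ResidueField 𝒪))
    (habs : ρbar.IsAbsolutelyIrreducible)
    (hdet : (GaloisRepAdic.ofResidualGaloisRep ρbar).DetIsCyclotomic p)
    (hsplit : ∀ σ : AlgebraicClosure ℚ ≃ₐ[ℚ] AlgebraicClosure ℚ,
      ∃ α β : ResidueField 𝒪, LinearMap.charpoly (ρbar.ρ σ) = (X - C α) * (X - C β))
    (hTW : ∀ (K : Type) [Field K] [Algebra (ResidueField 𝒪) K]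
      (G : Subgroup (AlgebraicClosure ℚ ≃ₐ[ℚ] AlgebraicClosure ℚ)), G.index = 2 →
      ∀ V : Submodule K (ρbar.baseChange K).V,
        (∀ σ ∈ G, ∀ x ∈ V, (ρbar.baseChange K).ρ σ x ∈ V) → V = ⊥ ∨ V = ⊤)
    (S Smin : Finset ℕ) (hpSmin : p ∈ Smin) (hSmin : Smin ⊆ S) (hS : ∀ q ∈ S, q.Prime)
    (hmin : ∀ q : ℕ, q.Prime → q ≠ p → (q ∈ Smin ↔ ¬ ρbar.IsUnramifiedAt q)) :
    (∃ r : ℕ, ∀ n : ℕ, ∃ qv : Fin r → ℕ, Function.Injective qv ∧
      (∀ i, (qv i).Prime ∧ qv i ∉ S ∧ p ^ (n + 1) ∣ qv i - 1) ∧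
      (∀ i, ∀ P : ValuationSubring (AlgebraicClosure ℚ), P.LiesOverPrime (qv i) →
        ∀ φ : AlgebraicClosure ℚ ≃ₐ[ℚ] AlgebraicClosure ℚ, P.IsFrobeniusAt φ (qv i) →
          ∃ α β : ResidueField 𝒪, α ≠ β ∧ LinearMap.charpoly (ρbar.ρ φ) = (X - C α) * (X - C β)) ∧
      ∀ DQ : GaloisRep.DeformationRingData 𝒪 ρbar (fun _A _ _ _ ρ =>
          GaloisRep.strictOrdinaryCondition 𝒪 p (Smin ∪ Finset.univ.image qv) ρ ∧
            ∀ q ∈ Smin, q.Prime → q ≠ p → ρ.IsUnipotentOnInertiaAt q),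
        ∃ γ : MvPowerSeries (Fin r) 𝒪 →ₐ[𝒪] DQ.R, Function.Surjective γ) ∧
    (∃ r : ℕ, ∀ n : ℕ, ∃ qv : Fin r → ℕ, Function.Injective qv ∧
      (∀ i, (qv i).Prime ∧ qv i ∉ S ∧ p ^ (n + 1) ∣ qv i - 1) ∧
      (∀ i, ∀ P : ValuationSubring (AlgebraicClosure ℚ), P.LiesOverPrime (qv i) →
        ∀ φ : AlgebraicClosure ℚ ≃ₐ[ℚ] AlgebraicClosure ℚ, P.IsFrobeniusAt φ (qv i) →
          ∃ α β : ResidueField 𝒪, α ≠ β ∧ LinearMap.charpoly (ρbar.ρ φ) = (X - C α) * (X - C β)) ∧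
      ∀ DQ : GaloisRep.DeformationRingData 𝒪 ρbar (fun _A _ _ _ ρ =>
          GaloisRep.flatCondition 𝒪 p (Smin ∪ Finset.univ.image qv) ρ ∧
            ∀ q ∈ Smin, q.Prime → q ≠ p → ρ.IsUnipotentOnInertiaAt q),
        ∃ γ : MvPowerSeries (Fin r) 𝒪 →ₐ[𝒪] DQ.R, Function.Surjective γ) :=
  Fermat.Agent.TW.s56_of_arith Fermat.Agent.TW.GW.EulerClosed.arithOut_ord_closed
    (Fermat.Agent.TW.GW.EulerClosed.arithOut_flat_of_locFlatOut (locFlatOut hOrd))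
    p hp2 hp𝒪 ρbar habs hdet hsplit hTW S Smin hpSmin hSmin hS hmin

end Fermat.Agent.TW.GW.S56OfOrdBranch
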